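import Fermat.Agent.S55.G.Rec.K4H115.InfResInv

/-!
# S55 / G / REC, leaf K4 (helper115), part 2: the cyclic step for inflated cocycles

`χ : G → ZMod n` additive with `χ σ = 1`, `N = ker χ`.  A 2-cocycle `f` which is inflated from
`G ⧸ N` (values in `A^N`) differs from the cup cocycle `cupChar n χ a`, `a = ∑_{k<n} f (σ^k, σ)`
a `G`-invariant element, by the coboundary of a 1-cochain inflated from `G ⧸ N`.

This is `H379.exists_cupChar_cohomologous` without the injectivity of `χ`, with invariance
tracking; also an extension lemma for 1-cochains given on `N` only.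
-/

set_option autoImplicit false

open groupCohomology Finset

namespace Fermat.Agent.S55.G.Rec.K4H115

open Fermat.Agent.S55.G.Rec.H379

section cyclic

variable {G A : Type*} [Group G] [AddCommGroup A] [DistribMulAction G A]
variable {n : ℕ} [NeZero n] {χ : G → ZMod n} {σ : G}

omit [AddCommGroup A] [DistribMulAction G A] in
/-- `g = σ ^ (χ g).val * m` with `χ m = 0`. -/
lemma exists_ker_factor (hχ : ∀ g h, χ (g * h) = χ g + χ h) (hσ : χ σ = 1) (g : G) :
    ∃ m : G, χ m = 0 ∧ g = σ ^ (χ g).val * m := by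
  refine ⟨(σ ^ (χ g).val)⁻¹ * g, ?_, by group⟩
  rw [hχ, chi_inv hχ, chi_pow hχ hσ, ZMod.natCast_zmod_val, neg_add_cancel]

omit [AddCommGroup A] [DistribMulAction G A] in
lemma chi_pow_card (hχ : ∀ g h, χ (g * h) = χ g + χ h) (hσ : χ σ = 1) : χ (σ ^ n) = 0 := by
  rw [chi_pow hχ hσ, ZMod.natCast_self]

omit [AddCommGroup A] [DistribMulAction G A] in
/-- The kernel of an additive character is normal. -/
lemma normal_of_ker (N : Subgroup G) (hN : ∀ g, g ∈ N ↔ χ g = 0)
    (hχ : ∀ g h, χ (g * h) = χ g + χ h) : N.Normal := by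
  refine ⟨fun s hs g => ?_⟩
  rw [hN] at hs ⊢
  have h1 : χ (g * g⁻¹) = 0 := by rw [mul_inv_cancel, chi_one hχ]
  rw [hχ] at h1
  rw [hχ, hχ, hs, add_zero, h1]

omit [DistribMulAction G A] in
/-- Shift invariance of sums over a full period, for functions invariant under `ker χ`. -/
lemma sum_range_pow_succ_of_ker (hχ : ∀ g h, χ (g * h) = χ g + χ h) (hσ : χ σ = 1)
    (F : G → A) (hF : ∀ g m : G, χ m = 0 → F (g * m) = F g) :
    ∑ k ∈ range n, F (σ ^ (k + 1)) = ∑ k ∈ range n, F (σ ^ k) := by
  have h1 := Finset.sum_range_succ (fun k => F (σ ^ k)) n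
  have h2 := Finset.sum_range_succ' (fun k => F (σ ^ k)) n
  rw [h1] at h2
  have h3 : F (σ ^ n) = F (σ ^ 0) := by
    have := hF 1 (σ ^ n) (chi_pow_card hχ hσ)
    rw [one_mul] at this
    rw [this, pow_zero]
  rw [h3] at h2
  exact (add_right_cancel h2).symm

/-- Invariance under `σ` and under `ker χ` implies invariance under `G`. -/
lemma smul_eq_of_gen_ker (hχ : ∀ g h, χ (g * h) = χ g + χ h) (hσ : χ σ = 1) {a : A}
    (ha : σ • a = a) (hk : ∀ m : G, χ m = 0 → m • a = a) (g : G) : g • a = a := by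
  obtain ⟨m, hm, hg⟩ := exists_ker_factor hχ hσ g
  have hp : ∀ k : ℕ, σ ^ k • a = a := by
    intro k
    induction k with
    | zero => rw [pow_zero, one_smul]
    | succ k ih => rw [pow_succ, mul_smul, ha, ih]
  rw [hg, mul_smul, hk m hm, hp]

/-- For an inflated 2-cocycle `f`, the element `∑_{k<n} f (σ^k, σ)` is `G`-invariant. -/
lemma smul_sum_cocycle_eq_of_infl (N : Subgroup G) (hN : ∀ g, g ∈ N ↔ χ g = 0)
    (hχ : ∀ g h, χ (g * h) = χ g + χ h) (hσ : χ σ = 1) {f : G × G → A} (hf : IsCocycle₂ f)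
    (hfN : Infl₂ N f) (g : G) :
    g • (∑ k ∈ range n, f (σ ^ k, σ)) = ∑ k ∈ range n, f (σ ^ k, σ) := by
  refine smul_eq_of_gen_ker hχ hσ ?_ ?_ g
  · have key : ∀ k : ℕ, f (σ ^ (k + 1), σ) + f (σ, σ ^ k) =
        σ • f (σ ^ k, σ) + f (σ, σ ^ (k + 1)) := by
      intro k
      have := hf σ (σ ^ k) σ
      rwa [← pow_succ', ← pow_succ] at this
    have hsum := congrArg (fun F : ℕ → A => ∑ k ∈ range n, F k) (funext key)
    simp only [Finset.sum_add_distrib] at hsum
    rw [sum_range_pow_succ_of_ker hχ hσ (fun g => f (g, σ))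
        (fun g m hm => hfN.left g σ m ((hN m).2 hm)),
      sum_range_pow_succ_of_ker hχ hσ (fun g => f (σ, g))
        (fun g m hm => hfN.right σ g m ((hN m).2 hm)), ← Finset.smul_sum] at hsum
    exact (add_right_cancel hsum).symm
  · intro m hm
    rw [Finset.smul_sum]
    exact Finset.sum_congr rfl fun k _ => hfN.fixed _ _ m ((hN m).2 hm)

/-- **Vanishing lemma**, inflated form: a 2-cocycle which is right-invariant under `ker χ` in the
second variable and vanishes on all pairs `(g, σ)` is zero. -/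
theorem eq_zero_of_isCocycle₂_of_infl (hχ : ∀ g h, χ (g * h) = χ g + χ h) (hσ : χ σ = 1)
    {f : G × G → A} (hf : IsCocycle₂ f)
    (hr : ∀ g h m : G, χ m = 0 → f (g, h * m) = f (g, h))
    (h0 : ∀ g : G, f (g, σ) = 0) : f = 0 := by
  have step : ∀ (g : G) (j : ℕ), f (g, σ ^ (j + 1)) = f (g, σ ^ j) := by
    intro g j
    have := hf g (σ ^ j) σ
    rw [h0, h0, smul_zero, zero_add, zero_add, ← pow_succ] at this
    exact this.symm
  have all : ∀ (g : G) (j : ℕ), f (g, σ ^ j) = 0 := by
    intro g j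
    induction j with
    | zero => rw [← step g 0, zero_add, pow_one, h0]
    | succ j ih => rw [step, ih]
  funext ⟨g, h⟩
  obtain ⟨m, hm, hh⟩ := exists_ker_factor hχ hσ h
  rw [hh, hr _ _ m hm, all]
  rfl

omit [NeZero n] in
/-- The cup cochain is inflated from `G ⧸ ker χ`. -/
lemma infl₂_cupChar (N : Subgroup G) (hN : ∀ g, g ∈ N ↔ χ g = 0)
    (hχ : ∀ g h, χ (g * h) = χ g + χ h) {a : A} (ha : ∀ g : G, g • a = a) :
    Infl₂ N (cupChar n χ a) := by
  refine ⟨fun g h s hs => ?_, fun g h s hs => ?_, fun g h s hs => ?_⟩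
  · simp only [cupChar_apply, hχ, (hN s).1 hs, add_zero]
  · simp only [cupChar_apply, hχ, (hN s).1 hs, add_zero]
  · simp only [cupChar_apply, smul_comm s, ha]

/-- **Cyclic step for inflated cocycles.** -/
theorem exists_cupChar_infl (N : Subgroup G) (hN : ∀ g, g ∈ N ↔ χ g = 0)
    (hχ : ∀ g h, χ (g * h) = χ g + χ h) (hσ : χ σ = 1) {f : G × G → A} (hf : IsCocycle₂ f)
    (hfN : Infl₂ N f) :
    ∃ a : A, (∀ g : G, g • a = a) ∧ ∃ u : G → A, Infl₁ N u ∧ f - cupChar n χ a = dOne u := by
  have hNn : N.Normal := normal_of_ker N hN hχ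
  by_cases hn1 : n = 1
  · -- `N = G`, `f` is constant
    have hall : ∀ g : G, g ∈ N := by
      intro g
      rw [hN]
      subst hn1
      exact Subsingleton.elim _ _
    have hconst : ∀ g h : G, f (g, h) = f (1, 1) := by
      intro g h
      have e1 := hfN.left 1 h g (hall g)
      have e2 := hfN.right 1 1 h (hall h)
      rw [one_mul] at e1 e2
      rw [e1, e2]
    refine ⟨0, fun g => smul_zero g, fun _ => f (1, 1),
      ⟨fun _ _ _ => rfl, fun _ s hs => hfN.fixed 1 1 s hs⟩, ?_⟩
    rw [cupChar_zero, sub_zero]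
    funext ⟨g, h⟩
    rw [dOne_apply, hconst g h, hfN.fixed 1 1 g (hall g), sub_add_cancel]
  · have hn : 1 < n := by
      have := NeZero.ne n
      omega
    have hinv := smul_sum_cocycle_eq_of_infl N hN hχ hσ hf hfN
    set t : ℕ → A := fun i => ∑ k ∈ range i, f (σ ^ k, σ) with ht
    set u : G → A := fun g => f (1, σ) - t (χ g).val with hu
    have huN : Infl₁ N u := by
      refine ⟨fun g s hs => ?_, fun g s hs => ?_⟩
      · simp only [hu, hχ, (hN s).1 hs, add_zero]
      · simp only [hu, ht, smul_sub, Finset.smul_sum, hfN.fixed _ _ s hs]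
    refine ⟨t n, hinv, u, huN, ?_⟩
    have hcoc : IsCocycle₂ (f - cupChar n χ (t n) - dOne u) :=
      isCocycle₂_sub (isCocycle₂_sub hf (isCocycle₂_cupChar hχ hinv)) (isCocycle₂_dOne u)
    have hinfl : Infl₂ N (f - cupChar n χ (t n) - dOne u) :=
      (hfN.sub (infl₂_cupChar N hN hχ hinv)).sub (huN.dOne hNn)
    have hzero := eq_zero_of_isCocycle₂_of_infl hχ hσ hcoc
      (fun g h m hm => hinfl.right g h m ((hN m).2 hm)) ?_
    · exact sub_eq_zero.1 hzero
    intro g
    have huσ : u σ = 0 := by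
      simp only [hu, ht, val_chi_gen hσ hn, Finset.sum_range_one, pow_zero, sub_self]
    have hug : u g = f (1, σ) - t (χ g).val := rfl
    have hugσ : u (g * σ) = f (1, σ) - t (((χ g).val + 1) % n) := by
      simp only [hu, val_chi_mul_gen hχ hσ hn]
    have hsplit := carry_split t (by simp [ht]) (ZMod.val_lt (χ g))
    have hfg : f (g, σ) = f (σ ^ (χ g).val, σ) := by
      obtain ⟨m, hm, hg⟩ := exists_ker_factor hχ hσ g
      conv_lhs => rw [hg]
      exact hfN.left _ _ m ((hN m).2 hm)
    have hsucc : t ((χ g).val + 1) = t (χ g).val + f (g, σ) := by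
      simp only [ht]
      rw [Finset.sum_range_succ, ← hfg]
    rw [← hsplit] at hsucc
    have e1 : f (g, σ) = (((χ g).val + 1) / n) • t n + t (((χ g).val + 1) % n) - t (χ g).val :=
      eq_sub_of_add_eq' hsucc.symm
    show f (g, σ) - carry n (χ g) (χ σ) • t n - (g • u σ - u (g * σ) + u g) = 0
    rw [carry_chi_gen hσ hn, huσ, hugσ, hug, smul_zero, e1]
    abel

end cyclic

/-! ## Extending a trivialising cochain from `N` to `G` -/

section extend

variable {G A : Type*} [Group G] [AddCommGroup A] [DistribMulAction G A]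

open Classical in
/-- A 1-cochain `b` which trivialises on `N` an `S`-inflated cocycle `f` and which is
right-`S`-invariant on `N` can be replaced by an `S`-inflated 1-cochain on `G`. -/
theorem exists_infl₁_of_restrict (N S : Subgroup G) (hS : S.Normal) (hSN : S ≤ N)
    {f : G × G → A} (hf : IsCocycle₂ f) (hfS : Infl₂ S f) (b : G → A)
    (hbr : ∀ n s : G, n ∈ N → s ∈ S → b (n * s) = b n)
    (hb : ∀ n m : G, n ∈ N → m ∈ N → n • b m - b (n * m) + b n = f (n, m)) :
    ∃ u : G → A, Infl₁ S u ∧
      ∀ n m : G, n ∈ N → m ∈ N → n • u m - u (n * m) + u n = f (n, m) := by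
  have h11 : b 1 = f (1, 1) := by
    have := hb 1 1 N.one_mem N.one_mem
    rw [one_smul, mul_one, sub_self, zero_add] at this
    exact this
  have hfix : ∀ m s : G, m ∈ N → s ∈ S → s • b m = b m := by
    intro m s hm hs
    have e := hb s m (hSN hs) hm
    have e1 : s * m = m * (m⁻¹ * s * m) := by group
    have e2 : b (s * m) = b m := by
      rw [e1, hbr m _ hm (conj_mem_of_normal hS hs m)]
    have e3 : b s = b 1 := by
      have := hbr 1 s N.one_mem hs
      rwa [one_mul] at this
    have e4 : f (s, m) = f (1, 1) := by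
      have h1 := hfS.left 1 m s hs
      rw [one_mul] at h1
      have h2 := hf 1 1 m
      simp only [one_mul, one_smul] at h2
      rw [h1]
      exact (add_left_cancel h2).symm
    rw [e2, e3, e4, h11] at e
    have : s • b m - b m = 0 := by
      linear_combination (norm := abel) e
    exact sub_eq_zero.1 this
  refine ⟨fun g => if g ∈ N then b g else 0, ⟨fun g s hs => ?_, fun g s hs => ?_⟩,
    fun n m hn hm => ?_⟩
  · by_cases hg : g ∈ N
    · have : g * s ∈ N := N.mul_mem hg (hSN hs)
      simp only [if_pos hg, if_pos this]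
      exact hbr g s hg hs
    · have : g * s ∉ N := fun h => hg (by
        have := N.mul_mem h (N.inv_mem (hSN hs))
        simpa using this)
      simp only [if_neg hg, if_neg this]
  · by_cases hg : g ∈ N
    · simp only [if_pos hg]
      exact hfix g s hg hs
    · simp only [if_neg hg, smul_zero]
  · simp only [if_pos hn, if_pos hm, if_pos (N.mul_mem hn hm)]
    exact hb n m hn hm

end extend

end Fermat.Agent.S55.G.Rec.K4H115
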