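import Fermat.Agent.S55.G.Rec.K4H115.CyclicInfl
import Fermat.Agent.S55.G.Rec.Hilbert90H844

/-!
# S55 / G / REC, leaf K4 (helper115), part 3: abstract glue

* `exists_cupChar_of_restrict` : inflation–restriction + cyclic step, abstract form: a 2-cocycle
  `f` of level `S` (a normal subgroup contained in `N = ker χ`) which is trivialised on `N` by a
  1-cochain of level `S` is the sum of a cup cocycle `cupChar n χ a` and of the coboundary of a
  1-cochain of level `S` on `G`, provided Hilbert 90 holds for `(N, S)`.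
* `h90_of_field` : Hilbert 90 for `(N, S)` when `G` acts on the units of a field `Ω`, and `S` is the
  stabiliser in `N` of a multiplicative family (`exists_unit_of_levelCocycle844`).
-/

set_option autoImplicit false
set_option linter.unusedSectionVars false

open groupCohomology

namespace Fermat.Agent.S55.G.Rec.K4H115

open Fermat.Agent.S55.G.Rec.H379

section glue

variable {G A : Type*} [Group G] [AddCommGroup A] [DistribMulAction G A]
variable {n : ℕ} [NeZero n] {χ : G → ZMod n} {σ : G}

/-- **Inflation–restriction + cyclic step**, abstract form. -/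
theorem exists_cupChar_of_restrict (hχ : ∀ g h, χ (g * h) = χ g + χ h) (hσ : χ σ = 1)
    (N : Subgroup G) (hN : ∀ g, g ∈ N ↔ χ g = 0) (S : Subgroup G) (hS : S.Normal) (hSN : S ≤ N)
    (h90 : H90 N S A) {f : G × G → A} (hf : IsCocycle₂ f)
    (hfS : ∀ g h s t : G, s ∈ S → t ∈ S → f (g * s, h * t) = f (g, h))
    (b : G → A) (hbr : ∀ m s : G, m ∈ N → s ∈ S → b (m * s) = b m)
    (hb : ∀ m m' : G, m ∈ N → m' ∈ N → m • b m' - b (m * m') + b m = f (m, m')) :
    ∃ a : A, (∀ g : G, g • a = a) ∧ ∃ y : G → A, (∀ g s : G, s ∈ S → y (g * s) = y g) ∧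
      f - cupChar n χ a = dOne y := by
  have hfS' : Infl₂ S f := infl₂_of_isCocycle₂ hS hf hfS
  obtain ⟨u, huS, hu⟩ := exists_infl₁_of_restrict N S hS hSN hf hfS' b hbr hb
  have hNn : N.Normal := normal_of_ker N hN hχ
  obtain ⟨w, hwS, hwN⟩ := exists_infl₁_infl₂_sub_dOne N S hNn hS hSN h90 hf hfS' huS hu
  have hf' : IsCocycle₂ (f - dOne w) := isCocycle₂_sub hf (isCocycle₂_dOne w)
  obtain ⟨a, ha, u', hu'N, he⟩ := exists_cupChar_infl N hN hχ hσ hf' hwN
  refine ⟨a, ha, w + u', fun g s hs => ?_, ?_⟩
  · simp only [Pi.add_apply, hwS.right g s hs, hu'N.right g s (hSN hs)]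
  · rw [dOne_add, ← he]
    abel

end glue

section hilbert90

/-- The stabiliser of a finite extension has finite index, also after pulling back along any
homomorphism into the Galois group. -/
lemma finite_quotient_comap_fixingSubgroup {K Ω : Type*} [Field K] [Field Ω] [Algebra K Ω]
    (E : IntermediateField K Ω) [FiniteDimensional K E] {H : Type*} [Group H]
    (f : H →* (Ω ≃ₐ[K] Ω)) : Finite (H ⧸ (E.fixingSubgroup.comap f)) := by
  let φ : H → (E →ₐ[K] Ω) := fun g => ((f g : Ω ≃ₐ[K] Ω) : Ω →ₐ[K] Ω).comp E.val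
  have hφ : ∀ g g' : H, φ g = φ g' → g⁻¹ * g' ∈ E.fixingSubgroup.comap f := by
    intro g g' h
    rw [Subgroup.mem_comap, IntermediateField.mem_fixingSubgroup_iff]
    intro x hx
    have := DFunLike.congr_fun h ⟨x, hx⟩
    change f g x = f g' x at this
    rw [map_mul, map_inv, AlgEquiv.mul_apply, ← this]
    exact (f g).symm_apply_apply x
  have hinj : Function.Injective
      (fun t : H ⧸ (E.fixingSubgroup.comap f) => φ (Quotient.out t)) := by
    intro t t' h
    have := hφ _ _ h
    rw [← QuotientGroup.eq, QuotientGroup.out_eq', QuotientGroup.out_eq'] at this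
    exact this
  exact Finite.of_injective _ hinj

end hilbert90

end Fermat.Agent.S55.G.Rec.K4H115
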