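import Fermat.Agent.S55.G.Rec.Spec2
import Fermat.Agent.S55.G.Rec.K4H115.Glue

/-!
# S55 / G / REC, leaf K4 (helper115): `cyclicSplit : CyclicSplitSpec`

A class of `Br(K)`, `K = ℚ̄^U`, which dies in `Br(L)`, `L = ℚ̄^{ker χ}`, `χ` a surjective continuous
character of `U` with values in `ℤ/n`, is a cup class `a ∪ δχ`.

Proof at the level of cochains: choose a finite normal level `F` for everything in sight,
`S = U ∩ Gal(ℚ̄/F)`; inflation–restriction with Hilbert 90 for `(ker χ, S)` (Dedekind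
independence, `exists_unit_of_levelCocycle844`) and the cyclic step, all the correcting
1-cochains being of level `S` (`exists_cupChar_of_restrict`).
-/

set_option autoImplicit false
set_option linter.unusedSectionVars false
set_option linter.style.haveILetI false

noncomputable section

namespace Fermat.Agent.S55.G.Rec.K4H115

open groupCohomology Fermat.Agent.S55.G.Rec

local notation "Qb" => AlgebraicClosure ℚ
local notation "GQ" => (AlgebraicClosure ℚ ≃ₐ[ℚ] AlgebraicClosure ℚ)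

/-- Every finite level is contained in a finite normal level. -/
lemma exists_normal_ge (F₀ : IntermediateField ℚ Qb) [FiniteDimensional ℚ F₀] :
    ∃ F : IntermediateField ℚ Qb, FiniteDimensional ℚ F ∧ Normal ℚ F ∧ F₀ ≤ F := by
  haveI : Algebra.IsAlgebraic ℚ Qb := AlgebraicClosure.isAlgebraic ℚ
  haveI : IsAlgClosure ℚ Qb := ⟨inferInstance, inferInstance⟩
  haveI : Normal ℚ Qb := IsAlgClosure.normal ℚ Qb
  exact ⟨IntermediateField.normalClosure ℚ ↥F₀ Qb, normalClosure.is_finiteDimensional ℚ _ Qb,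
    normalClosure.normal ℚ _ Qb, IntermediateField.le_normalClosure _⟩

/-- The fixing subgroup of a normal extension is a normal subgroup. -/
lemma normal_fixingSubgroup (F : IntermediateField ℚ Qb) [hF : Normal ℚ F] :
    F.fixingSubgroup.Normal := by
  have h := @IntermediateField.restrictNormalHom_ker ℚ Qb _ _ _ F hF
  rw [← h]
  exact MonoidHom.normal_ker _

/-- The action of `U` on `gModOn U`, in terms of units. -/
lemma repAct_gModOn_smul (U : Subgroup GQ) (g : ↥U) (a : gModOn U) :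
    (letI := H379.repAct (gModOn U); g • a) =
      Additive.ofMul ((g : GQ) • (Additive.toMul a : Qbˣ)) := rfl

/-- **Hilbert 90** for `(N, S)`, `N ≤ U` any subgroup and `S = U ∩ Gal(ℚ̄/F)`. -/
theorem h90_gModOn (U : Subgroup GQ) (N : Subgroup ↥U) (F : IntermediateField ℚ Qb)
    [FiniteDimensional ℚ F] :
    letI := H379.repAct (gModOn U)
    H90 N (F.fixingSubgroup.comap U.subtype) (gModOn U) := by
  letI := H379.repAct (gModOn U)
  intro c hc hcr _
  let f : ↥N →* GQ := U.subtype.comp N.subtype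
  haveI := finite_quotient_comap_fixingSubgroup F f
  obtain ⟨β, hβ⟩ := H844.exists_unit_of_levelCocycle844 (H := ↥N) (Ω := Qb) (T := ↥F)
    ((algebraMap F Qb : F →* Qb)) (F.fixingSubgroup.comap f)
    (by
      intro g hg
      rw [Subgroup.mem_comap, IntermediateField.mem_fixingSubgroup_iff]
      intro x hx
      exact hg ⟨x, hx⟩)
    (by
      intro g hg θ
      rw [Subgroup.mem_comap, IntermediateField.mem_fixingSubgroup_iff] at hg
      exact hg θ θ.2)
    (fun h => (Additive.toMul (c (h : ↥U)) : Qbˣ))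
    (by
      intro g h
      have := hc g h g.2 h.2
      have h2 := congrArg (fun u : gModOn U => ((Additive.toMul u : Qbˣ) : Qb)) this
      exact h2)
    (by
      intro g s hs
      have := hcr g s g.2 hs
      exact congrArg Additive.toMul this)
  refine ⟨toGMod U β⁻¹, fun m hm => ?_⟩
  have h1 : (m : GQ) • β * (Additive.toMul (c m) : Qbˣ) = β := by
    apply Units.ext
    exact hβ ⟨m, hm⟩
  apply Additive.toMul.injective
  show ((m : GQ) • β⁻¹) / β⁻¹ = (Additive.toMul (c m) : Qbˣ)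
  have h2 : (Additive.toMul (c m) : Qbˣ) = ((m : GQ) • β)⁻¹ * β := eq_inv_mul_of_mul_eq h1
  rw [h2, smul_inv', div_eq_mul_inv, inv_inv]

/-- Unpacking `gRes x = 0`: a level-constant 1-cochain on the smaller group trivialising the
restricted cocycle. -/
lemma exists_cochain_of_gRes_eq_zero {U U' : Subgroup GQ} (hle : U' ≤ U)
    (c : ↥(levelCocycles₂ U.subtype (gModOn U)))
    (hx : gRes hle (continuousH2π U.subtype (gModOn U) c) = 0) :
    ∃ b₀ : ↥U' → gModOn U, IsLevelConstant₁ U'.subtype b₀ ∧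
      ∀ g h : ↥U', (gModOn U).ρ (Subgroup.inclusion hle g) (b₀ h) - b₀ (g * h) + b₀ g =
        (c : ↥U × ↥U → gModOn U) (Subgroup.inclusion hle g, Subgroup.inclusion hle h) := by
  have hx1 : continuousH2π U'.subtype (gModOn U')
      (levelCocycles₂Map (rH := U.subtype) (rG := U'.subtype) (Subgroup.inclusion hle)
        (fun _ => rfl) (LinearMap.id : gModOn U →ₗ[ℤ] gModOn U') (fun _ _ => rfl) c) = 0 := hx
  have hx2 := (continuousH2π_eq_zero_iff _ _ _).1 hx1
  obtain ⟨b₀, hb₀, hdb₀⟩ := (mem_levelCoboundaries₂_iff _ _ _).1 hx2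
  refine ⟨b₀, hb₀, fun g h => ?_⟩
  have := congrFun hdb₀ (g, h)
  rw [d₁₂_hom_apply] at this
  exact this

/-- Two level cocycles differing by the coboundary of a level-constant cochain have the same
class. -/
lemma class_eq_of_sub_eq_dOne {k G : Type} [CommRing k] [Group G] (r : G →* GQ) (A : Rep.{0} k G)
    (c : ↥(levelCocycles₂ r A)) (f : G × G → A.V) (hf : f ∈ levelCocycles₂ r A) (y : G → A.V)
    (hy : IsLevelConstant₁ r y)
    (h : ∀ g h : G, (c : G × G → A.V) (g, h) - f (g, h) = A.ρ g (y h) - y (g * h) + y g) :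
    continuousH2π r A c = continuousH2π r A ⟨f, hf⟩ := by
  rw [← sub_eq_zero, ← map_sub, continuousH2π_eq_zero_iff, mem_levelCoboundaries₂_iff]
  refine ⟨y, hy, ?_⟩
  funext ⟨g, h'⟩
  rw [d₁₂_hom_apply]
  exact (h g h').symm

/-- **(K4)** global cyclic splitting. -/
theorem cyclicSplit : CyclicSplitSpec := by
  classical
  intro U _ n _ χ hχ hsurj x hx
  letI := H379.repAct (gModOn U)
  obtain ⟨c, rfl⟩ := Submodule.mkQ_surjective _ x
  have hle : χ.ker.map U.subtype ≤ U := Subgroup.map_subtype_le _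
  obtain ⟨b₀, hb₀, hdb₀⟩ := exists_cochain_of_gRes_eq_zero hle c hx
  -- a common finite normal level
  obtain ⟨F₁, hF₁, h₁⟩ := c.2.2
  obtain ⟨F₂, hF₂, h₂⟩ := hb₀
  obtain ⟨F₃, hF₃, h₃⟩ := id hχ
  haveI := hF₁
  haveI := hF₂
  haveI := hF₃
  obtain ⟨F, hFfin, hFn, hFle⟩ := exists_normal_ge (F₁ ⊔ F₂ ⊔ F₃)
  haveI := hFfin
  haveI := hFn
  have hF₁le : F.fixingSubgroup ≤ F₁.fixingSubgroup :=
    IntermediateField.fixingSubgroup_antitone ((le_sup_left.trans le_sup_left).trans hFle)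
  have hF₂le : F.fixingSubgroup ≤ F₂.fixingSubgroup :=
    IntermediateField.fixingSubgroup_antitone ((le_sup_right.trans le_sup_left).trans hFle)
  have hF₃le : F.fixingSubgroup ≤ F₃.fixingSubgroup :=
    IntermediateField.fixingSubgroup_antitone (le_sup_right.trans hFle)
  obtain ⟨S, hS⟩ : ∃ S : Subgroup ↥U, S = F.fixingSubgroup.comap U.subtype := ⟨_, rfl⟩
  have hSmem : ∀ s : ↥U, s ∈ S → (s : GQ) ∈ F.fixingSubgroup := by
    intro s hs
    rw [hS] at hs
    exact hs
  have hSn : S.Normal := by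
    rw [hS]
    exact (normal_fixingSubgroup F).comap U.subtype
  have hχadd : ∀ g h : ↥U, chiAdd χ (g * h) = chiAdd χ g + chiAdd χ h := chiAdd_mul χ
  obtain ⟨σ, hσ⟩ := hsurj (Multiplicative.ofAdd 1)
  have hσ' : chiAdd χ σ = 1 := by
    simp only [chiAdd, hσ, toAdd_ofAdd]
  have hN : ∀ g : ↥U, g ∈ χ.ker ↔ chiAdd χ g = 0 := by
    intro g
    rw [MonoidHom.mem_ker]
    constructor
    · intro h
      simp only [chiAdd, h, toAdd_one]
    · intro h
      exact Multiplicative.toAdd.injective h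
  have hSN : S ≤ χ.ker := by
    intro s hs
    rw [MonoidHom.mem_ker]
    have := h₃ 1 s (hF₃le (hSmem s hs))
    rwa [one_mul, map_one] at this
  have hcoc : IsCocycle₂ (c : ↥U × ↥U → gModOn U) :=
    (H379.mem_cocycles₂_iff_isCocycle₂ _ _).1 c.2.1
  have hcS : ∀ g h s t : ↥U, s ∈ S → t ∈ S →
      (c : ↥U × ↥U → gModOn U) (g * s, h * t) = (c : ↥U × ↥U → gModOn U) (g, h) :=
    fun g h s t hs ht => h₁ g h s t (hF₁le (hSmem s hs)) (hF₁le (hSmem t ht))
  -- the trivialising cochain, extended by zero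
  obtain ⟨b, hb_eq⟩ : ∃ b : ↥U → gModOn U, ∀ (g : ↥U) (h : g ∈ χ.ker),
      b g = b₀ ⟨(g : GQ), Subgroup.mem_map_of_mem _ h⟩ :=
    ⟨fun g => if h : g ∈ χ.ker then b₀ ⟨(g : GQ), Subgroup.mem_map_of_mem _ h⟩ else 0,
      fun g h => dif_pos h⟩
  have hbr : ∀ m s : ↥U, m ∈ χ.ker → s ∈ S → b (m * s) = b m := by
    intro m s hm hs
    have hs' : s ∈ χ.ker := hSN hs
    rw [hb_eq m hm, hb_eq (m * s) (mul_mem hm hs')]
    exact h₂ ⟨(m : GQ), Subgroup.mem_map_of_mem _ hm⟩ ⟨(s : GQ), Subgroup.mem_map_of_mem _ hs'⟩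
      (hF₂le (hSmem s hs))
  have hb : ∀ m m' : ↥U, m ∈ χ.ker → m' ∈ χ.ker →
      m • b m' - b (m * m') + b m = (c : ↥U × ↥U → gModOn U) (m, m') := by
    intro m m' hm hm'
    rw [hb_eq m hm, hb_eq m' hm', hb_eq (m * m') (mul_mem hm hm')]
    exact hdb₀ ⟨(m : GQ), Subgroup.mem_map_of_mem _ hm⟩ ⟨(m' : GQ), Subgroup.mem_map_of_mem _ hm'⟩
  have h90 : H90 χ.ker S (gModOn U) := by
    rw [hS]
    exact h90_gModOn U χ.ker F
  obtain ⟨a, ha, y, hy, hcy⟩ := exists_cupChar_of_restrict hχadd hσ' χ.ker hN S hSn hSN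
    h90 hcoc hcS b hbr hb
  -- conclusion
  have hfix : GFixed U (Additive.toMul a : Qbˣ) := by
    intro u hu
    exact congrArg Additive.toMul (ha ⟨u, hu⟩)
  have e := gcc_eq U n χ (Additive.toMul a : Qbˣ) ⟨NeZero.ne n, hχ, hfix⟩
  refine ⟨(Additive.toMul a : Qbˣ), hfix, Eq.trans ?_ e.symm⟩
  refine class_eq_of_sub_eq_dOne U.subtype (gModOn U) c _ _ y ⟨F, hFfin, fun g s hs => hy g s ?_⟩
    (fun g h => ?_)
  · rw [hS]
    exact hs
  · exact congrFun hcy (g, h)

end Fermat.Agent.S55.G.Rec.K4H115
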