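import Fermat.Agent.S55.G.Rec.H379Core

/-!
# S55 / G / REC, leaf K4 (helper115), part 1: inflation–restriction in degree 2 with
invariance tracking (elementary cochain form)

`G` a group, `A` a `G`-module, `S ≤ N` normal subgroups of `G`.  If a 2-cocycle `f`, inflated
from `G ⧸ S`, restricts on `N` to the coboundary of an `S`-inflated 1-cochain and if every
`S`-inflated 1-cocycle on `N` is a coboundary ("Hilbert 90"), then `f - d w` is inflated from
`G ⧸ N` for an `S`-inflated 1-cochain `w`.

The point (compared with the usual statement) is that the correcting cochain `w` is again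
inflated from `G ⧸ S`: this is what is needed for level-constant (= continuous) cochains.
-/

set_option autoImplicit false

open groupCohomology

namespace Fermat.Agent.S55.G.Rec.K4H115

open Fermat.Agent.S55.G.Rec.H379

variable {G A : Type*} [Group G] [AddCommGroup A] [DistribMulAction G A]

/-- A 1-cochain on `G` is inflated from `G ⧸ S` with values in `A^S`. -/
structure Infl₁ (S : Subgroup G) (w : G → A) : Prop where
  right : ∀ g s : G, s ∈ S → w (g * s) = w g
  fixed : ∀ g s : G, s ∈ S → s • w g = w g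

/-- A 2-cochain on `G` is inflated from `G ⧸ S` with values in `A^S`. -/
structure Infl₂ (S : Subgroup G) (f : G × G → A) : Prop where
  left : ∀ g h s : G, s ∈ S → f (g * s, h) = f (g, h)
  right : ∀ g h s : G, s ∈ S → f (g, h * s) = f (g, h)
  fixed : ∀ g h s : G, s ∈ S → s • f (g, h) = f (g, h)

section basic

variable {S : Subgroup G}

lemma Infl₁.add {w w' : G → A} (h : Infl₁ S w) (h' : Infl₁ S w') : Infl₁ S (w + w') :=
  ⟨fun g s hs => by simp only [Pi.add_apply, h.right g s hs, h'.right g s hs],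
   fun g s hs => by simp only [Pi.add_apply, smul_add, h.fixed g s hs, h'.fixed g s hs]⟩

lemma Infl₁.sub {w w' : G → A} (h : Infl₁ S w) (h' : Infl₁ S w') : Infl₁ S (w - w') :=
  ⟨fun g s hs => by simp only [Pi.sub_apply, h.right g s hs, h'.right g s hs],
   fun g s hs => by simp only [Pi.sub_apply, smul_sub, h.fixed g s hs, h'.fixed g s hs]⟩

lemma Infl₂.add {f f' : G × G → A} (h : Infl₂ S f) (h' : Infl₂ S f') : Infl₂ S (f + f') :=
  ⟨fun g k s hs => by simp only [Pi.add_apply, h.left g k s hs, h'.left g k s hs],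
   fun g k s hs => by simp only [Pi.add_apply, h.right g k s hs, h'.right g k s hs],
   fun g k s hs => by simp only [Pi.add_apply, smul_add, h.fixed g k s hs, h'.fixed g k s hs]⟩

lemma Infl₂.sub {f f' : G × G → A} (h : Infl₂ S f) (h' : Infl₂ S f') : Infl₂ S (f - f') :=
  ⟨fun g k s hs => by simp only [Pi.sub_apply, h.left g k s hs, h'.left g k s hs],
   fun g k s hs => by simp only [Pi.sub_apply, h.right g k s hs, h'.right g k s hs],
   fun g k s hs => by simp only [Pi.sub_apply, smul_sub, h.fixed g k s hs, h'.fixed g k s hs]⟩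

lemma Infl₁.mono {S' : Subgroup G} (hle : S' ≤ S) {w : G → A} (h : Infl₁ S w) : Infl₁ S' w :=
  ⟨fun g s hs => h.right g s (hle hs), fun g s hs => h.fixed g s (hle hs)⟩

lemma Infl₂.mono {S' : Subgroup G} (hle : S' ≤ S) {f : G × G → A} (h : Infl₂ S f) :
    Infl₂ S' f :=
  ⟨fun g k s hs => h.left g k s (hle hs), fun g k s hs => h.right g k s (hle hs),
   fun g k s hs => h.fixed g k s (hle hs)⟩

omit [AddCommGroup A] [DistribMulAction G A] in
lemma conj_mem_of_normal (hS : S.Normal) {s : G} (hs : s ∈ S) (h : G) : h⁻¹ * s * h ∈ S := by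
  have := hS.conj_mem s hs h⁻¹
  simpa using this

/-- An inflated 1-cochain is also left-invariant. -/
lemma Infl₁.left (hS : S.Normal) {w : G → A} (h : Infl₁ S w) (g s : G) (hs : s ∈ S) :
    w (s * g) = w g := by
  have e : s * g = g * (g⁻¹ * s * g) := by group
  rw [e, h.right g _ (conj_mem_of_normal hS hs g)]

/-- The values `g • w h` of an inflated cochain are `S`-fixed. -/
lemma Infl₁.fixed_smul (hS : S.Normal) {w : G → A} (h : Infl₁ S w) (g k s : G) (hs : s ∈ S) :
    s • g • w k = g • w k := by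
  have e : s * g = g * (g⁻¹ * s * g) := by group
  rw [← mul_smul, e, mul_smul, h.fixed k _ (conj_mem_of_normal hS hs g)]

/-- The coboundary of an inflated 1-cochain is inflated. -/
lemma Infl₁.dOne (hS : S.Normal) {w : G → A} (h : Infl₁ S w) : Infl₂ S (dOne w) := by
  refine ⟨fun g k s hs => ?_, fun g k s hs => ?_, fun g k s hs => ?_⟩
  · have e : g * s * k = g * k * (k⁻¹ * s * k) := by group
    simp only [dOne_apply, mul_smul, h.fixed k s hs, h.right g s hs, e,
      h.right (g * k) _ (conj_mem_of_normal hS hs k)]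
  · have e : g * (k * s) = g * k * s := by group
    simp only [dOne_apply, h.right k s hs, e, h.right (g * k) s hs]
  · simp only [dOne_apply, smul_add, smul_sub, h.fixed_smul hS g k s hs, h.fixed _ s hs]

/-- A 2-cocycle which is right-invariant under the normal subgroup `S` in both variables is
inflated from `G ⧸ S` (left-invariance and `S`-fixed values are automatic). -/
lemma infl₂_of_isCocycle₂ (hS : S.Normal) {f : G × G → A} (hf : IsCocycle₂ f)
    (hr : ∀ g h s t : G, s ∈ S → t ∈ S → f (g * s, h * t) = f (g, h)) : Infl₂ S f := by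
  have hr1 : ∀ g h s : G, s ∈ S → f (g * s, h) = f (g, h) := fun g h s hs => by
    have := hr g h s 1 hs S.one_mem
    rwa [mul_one] at this
  have hr2 : ∀ g h s : G, s ∈ S → f (g, h * s) = f (g, h) := fun g h s hs => by
    have := hr g h 1 s S.one_mem hs
    rwa [mul_one] at this
  have h1 : ∀ j : G, f (1, j) = f (1, 1) := by
    intro j
    have := hf 1 1 j
    simp only [one_mul, one_smul] at this
    exact (add_left_cancel this).symm
  have hs1 : ∀ s h : G, s ∈ S → f (s, h) = f (1, 1) := by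
    intro s h hs
    have := hr1 1 h s hs
    rw [one_mul] at this
    rw [this, h1]
  refine ⟨hr1, hr2, fun g h s hs => ?_⟩
  have := hf s g h
  have e : s * g = g * (g⁻¹ * s * g) := by group
  rw [e, hr1 g h _ (conj_mem_of_normal hS hs g), hs1 s _ hs, hs1 s _ hs] at this
  exact (add_right_cancel this).symm

end basic

/-! ## Coset representatives -/

section reps

variable (N : Subgroup G)

/-- The chosen representative of the left coset of `t`. -/
noncomputable def rr (t : G) : G := Quotient.out (t : G ⧸ N)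

/-- `t = rr t * ht t` with `ht t ∈ N`. -/
noncomputable def ht (t : G) : G := (rr N t)⁻¹ * t

lemma ht_mem (t : G) : ht N t ∈ N := by
  unfold ht rr
  rw [← QuotientGroup.eq]
  exact QuotientGroup.out_eq' _

lemma rr_mul_ht (t : G) : rr N t * ht N t = t := by
  unfold ht; group

lemma rr_eq (t : G) : rr N t = t * (ht N t)⁻¹ := by
  unfold ht; group

lemma rr_mul_mem (t : G) {h : G} (hh' : h ∈ N) : rr N (t * h) = rr N t := by
  unfold rr
  congr 1
  exact QuotientGroup.mk_mul_of_mem t hh'

lemma ht_mul_mem (t : G) {h : G} (hh' : h ∈ N) : ht N (t * h) = ht N t * h := by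
  unfold ht
  rw [rr_mul_mem N t hh']; group

lemma rr_mem {n : G} (hn : n ∈ N) : rr N n ∈ N := by
  rw [rr_eq N n]; exact N.mul_mem hn (N.inv_mem (ht_mem N n))

end reps

/-! ## The main step -/

section main

variable (N S : Subgroup G)

/-- "Hilbert 90" hypothesis: every `S`-inflated 1-cocycle on `N` is a coboundary. -/
def H90 (N S : Subgroup G) (A : Type*) [AddCommGroup A] [DistribMulAction G A] : Prop :=
  ∀ c : G → A, (∀ n m : G, n ∈ N → m ∈ N → c (n * m) = n • c m + c n) →
    (∀ n s : G, n ∈ N → s ∈ S → c (n * s) = c n) →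
    (∀ n s : G, n ∈ N → s ∈ S → s • c n = c n) →
    ∃ α : A, ∀ n : G, n ∈ N → n • α - α = c n

/-- Key normalisation step: a 2-cocycle vanishing on `G × N` and on `N × G` is inflated. -/
lemma infl₂_of_vanish (hN : N.Normal) {f : G × G → A} (hf : IsCocycle₂ f)
    (h1 : ∀ g n : G, n ∈ N → f (g, n) = 0) (h2 : ∀ n h : G, n ∈ N → f (n, h) = 0) :
    Infl₂ N f := by
  have hr : ∀ g h n : G, n ∈ N → f (g, h * n) = f (g, h) := by
    intro g h n hn'
    have := hf g h n
    rw [h1 (g * h) n hn', h1 h n hn', smul_zero] at this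
    linear_combination (norm := abel) - this
  have hl : ∀ g h n : G, n ∈ N → f (g * n, h) = f (g, h) := by
    intro g h n hn'
    have := hf g n h
    rw [h1 g n hn', h2 n h hn', smul_zero] at this
    have e : n * h = h * (h⁻¹ * n * h) := by group
    rw [e, hr g h _ (conj_mem_of_normal hN hn' h)] at this
    linear_combination (norm := abel) this
  refine ⟨hl, hr, ?_⟩
  intro g h n hn'
  have := hf n g h
  rw [h2 n g hn', h2 n (g * h) hn'] at this
  have e : n * g = g * (g⁻¹ * n * g) := by group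
  rw [e, hl g h _ (conj_mem_of_normal hN hn' g)] at this
  linear_combination (norm := abel) - this

/-- **Inflation–restriction in degree 2 with invariance tracking.** -/
theorem exists_infl₁_infl₂_sub_dOne (hN : N.Normal) (hS : S.Normal) (hSN : S ≤ N)
    (h90 : H90 N S A) {f : G × G → A} (hf : IsCocycle₂ f) (hfS : Infl₂ S f)
    {u : G → A} (huS : Infl₁ S u)
    (hu : ∀ n m : G, n ∈ N → m ∈ N → n • u m - u (n * m) + u n = f (n, m)) :
    ∃ w : G → A, Infl₁ S w ∧ Infl₂ N (f - dOne w) := by
  classical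
  -- Step 1: kill `f` on `N × N`.
  set f₁ : G × G → A := f - dOne u with hf₁
  have hf₁c : IsCocycle₂ f₁ := isCocycle₂_sub hf (isCocycle₂_dOne u)
  have hf₁S : Infl₂ S f₁ := hfS.sub (huS.dOne hS)
  have hf₁N : ∀ n₁ n₂ : G, n₁ ∈ N → n₂ ∈ N → f₁ (n₁, n₂) = 0 := by
    intro n₁ n₂ h₁ h₂
    simp only [hf₁, Pi.sub_apply, dOne_apply, hu n₁ n₂ h₁ h₂, sub_self]
  -- Step 2: kill it on `G × N`.
  set w₁ : G → A := fun g => f₁ (rr N g, ht N g) with hw₁
  have hw₁S : Infl₁ S w₁ := by
    refine ⟨fun g s hs => ?_, fun g s hs => hf₁S.fixed _ _ s hs⟩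
    simp only [hw₁, rr_mul_mem N g (hSN hs), ht_mul_mem N g (hSN hs)]
    exact hf₁S.right _ _ s hs
  set f₂ : G × G → A := f₁ + dOne w₁ with hf₂
  have hf₂c : IsCocycle₂ f₂ := isCocycle₂_add hf₁c (isCocycle₂_dOne w₁)
  have hf₂S : Infl₂ S f₂ := hf₁S.add (hw₁S.dOne hS)
  have hw₁N : ∀ n : G, n ∈ N → w₁ n = 0 := by
    intro n hn'
    exact hf₁N _ _ (rr_mem N hn') (ht_mem N n)
  have hf₂GN : ∀ g n : G, n ∈ N → f₂ (g, n) = 0 := by
    intro g n hn'
    have e1 := hf₁c (rr N g) (ht N g) n
    rw [rr_mul_ht, hf₁N _ _ (ht_mem N g) hn', smul_zero] at e1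
    have e2 : w₁ (g * n) = f₁ (rr N g, ht N g * n) := by
      simp only [hw₁, rr_mul_mem N g hn', ht_mul_mem N g hn']
    simp only [hf₂, Pi.add_apply, dOne_apply, hw₁N n hn', smul_zero, e2]
    have e3 : w₁ g = f₁ (rr N g, ht N g) := rfl
    rw [e3]
    linear_combination (norm := abel) e1
  have hf₂NN : ∀ n₁ n₂ : G, n₁ ∈ N → n₂ ∈ N → f₂ (n₁, n₂) = 0 :=
    fun n₁ n₂ _ h₂ => hf₂GN n₁ n₂ h₂
  have hf₂r : ∀ g h n : G, n ∈ N → f₂ (g, h * n) = f₂ (g, h) := by
    intro g h n hn'
    have := hf₂c g h n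
    rw [hf₂GN (g * h) n hn', hf₂GN h n hn', smul_zero] at this
    linear_combination (norm := abel) - this
  -- Step 3: for each `h`, `n ↦ f₂ (n, h)` is an `S`-inflated 1-cocycle on `N`.
  have hcoc : ∀ h : G, ∀ n m : G, n ∈ N → m ∈ N →
      f₂ (n * m, h) = n • f₂ (m, h) + f₂ (n, h) := by
    intro h n₁ n₂ hn₁ hn₂
    have := hf₂c n₁ n₂ h
    rw [hf₂NN _ _ hn₁ hn₂] at this
    have e : n₂ * h = h * (h⁻¹ * n₂ * h) := by group
    rw [e, hf₂r _ h _ (conj_mem_of_normal hN hn₂ h)] at this
    linear_combination (norm := abel) this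
  have hex : ∀ h : G, ∃ α : A, ∀ n : G, n ∈ N → n • α - α = f₂ (n, h) := fun h =>
    h90 (fun n => f₂ (n, h)) (hcoc h) (fun n s _ hs => hf₂S.left n h s hs)
      (fun n s _ hs => hf₂S.fixed n h s hs)
  choose α hα using hex
  have hαS : ∀ h s : G, s ∈ S → s • α h = α h := by
    intro h s hs
    have e1 := hα h s (hSN hs)
    have e2 := hα h 1 N.one_mem
    have e3 : f₂ (s, h) = f₂ (1, h) := by
      have := hf₂S.left 1 h s hs
      rwa [one_mul] at this
    rw [one_smul, sub_self] at e2
    rw [e3, ← e2] at e1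
    exact sub_eq_zero.1 e1
  set a : G → A := fun h => α (rr N h) - α (rr N 1) with ha
  have ha_r : ∀ h n : G, n ∈ N → a (h * n) = a h := by
    intro h n hn'
    simp only [ha, rr_mul_mem N h hn']
  have haS : Infl₁ S a :=
    ⟨fun g s hs => ha_r g s (hSN hs),
     fun g s hs => by simp only [ha, smul_sub, hαS _ s hs]⟩
  have ha_N : ∀ n : G, n ∈ N → a n = 0 := by
    intro n hn'
    have : rr N n = rr N 1 := by
      have := rr_mul_mem N 1 hn'
      rwa [one_mul] at this
    simp only [ha, this, sub_self]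
  have ha_d : ∀ h n : G, n ∈ N → n • a h - a h = f₂ (n, h) := by
    intro h n hn'
    have e1 := hα (rr N h) n hn'
    have e2 := hα (rr N 1) n hn'
    have e3 : f₂ (n, rr N 1) = 0 := hf₂GN n _ (rr_mem N N.one_mem)
    have e4 : f₂ (n, rr N h) = f₂ (n, h) := by
      rw [rr_eq N h, hf₂r n h _ (N.inv_mem (ht_mem N h))]
    rw [e3] at e2
    rw [e4] at e1
    simp only [ha, smul_sub]
    linear_combination (norm := abel) e1 - e2
  -- Step 4
  set f₃ : G × G → A := f₂ - dOne a with hf₃
  have hf₃c : IsCocycle₂ f₃ := isCocycle₂_sub hf₂c (isCocycle₂_dOne a)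
  have h3GN : ∀ g n : G, n ∈ N → f₃ (g, n) = 0 := by
    intro g n hn'
    simp only [hf₃, Pi.sub_apply, dOne_apply, hf₂GN g n hn', ha_N n hn', ha_r g n hn', smul_zero]
    abel
  have h3NG : ∀ n h : G, n ∈ N → f₃ (n, h) = 0 := by
    intro n h hn'
    have e : n * h = h * (h⁻¹ * n * h) := by group
    have e1 : a (n * h) = a h := by rw [e, ha_r h _ (conj_mem_of_normal hN hn' h)]
    simp only [hf₃, Pi.sub_apply, dOne_apply, e1, ha_N n hn']
    linear_combination (norm := abel) - ha_d h n hn'
  refine ⟨u - w₁ + a, (huS.sub hw₁S).add haS, ?_⟩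
  have : f - dOne (u - w₁ + a) = f₃ := by
    rw [dOne_add, dOne_sub, hf₃, hf₂, hf₁]; abel
  rw [this]
  exact infl₂_of_vanish N hN hf₃c h3GN h3NG

end main

end Fermat.Agent.S55.G.Rec.K4H115
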